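/-
Project S27, cell (Z)/ZK (helper11): the full Riemann–Roch theorem over an algebraically closed
constant field, in any characteristic, via Weil differentials (Stichtenoth 1.5).
Prefix `s27zk_`.  Namespace `Fermat.Agent.S27`.

PART 1: the spaces `Ω(A) := (𝔸(A) + F)^⊥ ⊆ Dual K 𝔸` and the `F`-action `(f ω)(α) = ω (f α)`.

* `s27zk_Omega A`           : `Submodule K (Module.Dual K 𝔸)`;
* `s27zk_mem_Omega_iff`     : `ω ∈ Ω(A) ↔ ω` vanishes on `𝔸(A)` and on the principal repartitions;
* `s27zk_Omega_anti`        : `A ≤ B → Ω(B) ≤ Ω(A)`;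
* `s27zk_finrank_Omega`     : `dim Ω(A) = dim H1(A)` when `H1(A)` is finite-dimensional;
* `s27zk_act f ω`           : the `F`-action, with `s27zk_act_mem` : `ω ∈ Ω(A)`, `f ≠ 0`,
                              `B ≤ A + (f)` (pointwise) `⟹ f ω ∈ Ω(B)`.
-/
import Mathlib
import Fermat.Agent.S27.Genus.Dim

set_option autoImplicit false
set_option linter.unusedSectionVars false
set_option linter.style.haveILetI false
set_option linter.unusedVariables false

noncomputable section

namespace Fermat.Agent.S27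

open AlgebraicCurve Fermat.Agent.JT3 Fermat.Agent.S24 WithZero

universe u v
variable {K : Type u} {F : Type v} [Field K] [Field F] [Algebra K F]

/-- multiplication by `f` on the repartitions, as a `K`-linear map. -/
def s27zk_mul (f : F) : ↥(repartitions K F) →ₗ[K] ↥(repartitions K F) :=
  (LinearMap.lsmul F ↥(repartitions K F) f).restrictScalars K

theorem s27zk_mul_apply (f : F) (α : ↥(repartitions K F)) (w : Place K F) :
    ((s27zk_mul f α : ↥(repartitions K F)) : Place K F → F) w =
      f * (α : Place K F → F) w := by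
  simp [s27zk_mul]

theorem s27zk_mul_one : s27zk_mul (K := K) (1 : F) = LinearMap.id := by
  ext α w
  rw [s27zk_mul_apply]
  simp

theorem s27zk_mul_mul (f g : F) (α : ↥(repartitions K F)) :
    s27zk_mul f (s27zk_mul g α) = s27zk_mul (f * g) α := by
  ext w
  rw [s27zk_mul_apply, s27zk_mul_apply, s27zk_mul_apply, mul_assoc]

theorem s27zk_mul_add (f g : F) (α : ↥(repartitions K F)) :
    s27zk_mul (f + g) α = s27zk_mul f α + s27zk_mul g α := by
  ext w
  rw [s27gen_add_apply, s27zk_mul_apply, s27zk_mul_apply, s27zk_mul_apply, add_mul]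

theorem s27zk_mul_algebraMap (c : K) (f : F) (α : ↥(repartitions K F)) :
    s27zk_mul (algebraMap K F c * f) α = c • s27zk_mul f α := by
  ext w
  rw [s27gen_smul_apply, s27zk_mul_apply, s27zk_mul_apply, mul_assoc]

theorem s27zk_mul_const (f g : F) :
    s27zk_mul (K := K) f (s27gen_const g) = s27gen_const (f * g) := by
  ext w
  rw [s27zk_mul_apply, s27gen_const_apply, s27gen_const_apply]

/-! ### the `F`-action on `Dual K 𝔸` -/

/-- the `F`-action on linear forms: `(f ω)(α) = ω (f α)`. -/
def s27zk_act (f : F) (ω : Module.Dual K ↥(repartitions K F)) :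
    Module.Dual K ↥(repartitions K F) :=
  ω.comp (s27zk_mul f)

theorem s27zk_act_apply (f : F) (ω : Module.Dual K ↥(repartitions K F))
    (α : ↥(repartitions K F)) : s27zk_act f ω α = ω (s27zk_mul f α) := rfl

theorem s27zk_act_one (ω : Module.Dual K ↥(repartitions K F)) : s27zk_act (1 : F) ω = ω := by
  ext α
  rw [s27zk_act_apply, s27zk_mul_one, LinearMap.id_apply]

theorem s27zk_act_act (f g : F) (ω : Module.Dual K ↥(repartitions K F)) :
    s27zk_act f (s27zk_act g ω) = s27zk_act (g * f) ω := by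
  ext α
  rw [s27zk_act_apply, s27zk_act_apply, s27zk_act_apply, s27zk_mul_mul]

theorem s27zk_act_add_left (f g : F) (ω : Module.Dual K ↥(repartitions K F)) :
    s27zk_act (f + g) ω = s27zk_act f ω + s27zk_act g ω := by
  ext α
  rw [LinearMap.add_apply, s27zk_act_apply, s27zk_act_apply, s27zk_act_apply, s27zk_mul_add,
    map_add]

theorem s27zk_act_add_right (f : F) (ω ω' : Module.Dual K ↥(repartitions K F)) :
    s27zk_act f (ω + ω') = s27zk_act f ω + s27zk_act f ω' := by
  ext α
  rw [LinearMap.add_apply, s27zk_act_apply, s27zk_act_apply, s27zk_act_apply,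
    LinearMap.add_apply]

theorem s27zk_act_smul_left (c : K) (f : F) (ω : Module.Dual K ↥(repartitions K F)) :
    s27zk_act (c • f) ω = c • s27zk_act f ω := by
  ext α
  rw [LinearMap.smul_apply, s27zk_act_apply, s27zk_act_apply, Algebra.smul_def,
    s27zk_mul_algebraMap, map_smul]

theorem s27zk_act_smul_right (c : K) (f : F) (ω : Module.Dual K ↥(repartitions K F)) :
    s27zk_act f (c • ω) = c • s27zk_act f ω := by
  ext α
  rw [LinearMap.smul_apply, s27zk_act_apply, s27zk_act_apply, LinearMap.smul_apply]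

theorem s27zk_act_zero_left (ω : Module.Dual K ↥(repartitions K F)) :
    s27zk_act (0 : F) ω = 0 := by
  have h := s27zk_act_add_left (0 : F) 0 ω
  rw [add_zero] at h
  exact left_eq_add.1 h

theorem s27zk_act_zero_right (f : F) :
    s27zk_act f (0 : Module.Dual K ↥(repartitions K F)) = 0 := by
  ext α
  rw [s27zk_act_apply, LinearMap.zero_apply, LinearMap.zero_apply]

theorem s27zk_act_neg_left (f : F) (ω : Module.Dual K ↥(repartitions K F)) :
    s27zk_act (-f) ω = -s27zk_act f ω := by
  have h := s27zk_act_add_left f (-f) ω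
  rw [add_neg_cancel, s27zk_act_zero_left] at h
  exact (neg_eq_of_add_eq_zero_right h.symm).symm

/-- the `K`-linear map `f ↦ f ω`. -/
def s27zk_actL (ω : Module.Dual K ↥(repartitions K F)) :
    F →ₗ[K] Module.Dual K ↥(repartitions K F) where
  toFun f := s27zk_act f ω
  map_add' f g := s27zk_act_add_left f g ω
  map_smul' c f := s27zk_act_smul_left c f ω

theorem s27zk_actL_apply (ω : Module.Dual K ↥(repartitions K F)) (f : F) :
    s27zk_actL ω f = s27zk_act f ω := rfl

/-- `f ω = 0` with `f ≠ 0` forces `ω = 0`. -/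
theorem s27zk_eq_zero_of_act_eq_zero {f : F} (hf : f ≠ 0)
    {ω : Module.Dual K ↥(repartitions K F)} (h : s27zk_act f ω = 0) : ω = 0 := by
  have h1 : s27zk_act f⁻¹ (s27zk_act f ω) = ω := by
    rw [s27zk_act_act, mul_inv_cancel₀ hf, s27zk_act_one]
  rw [← h1, h, s27zk_act_zero_right]

/-! ### the spaces `Ω(A)` -/

/-- `Ω(A)`: the linear forms on `𝔸` vanishing on `𝔸(A) + F`. -/
def s27zk_Omega (A : Divisor K F) : Submodule K (Module.Dual K ↥(repartitions K F)) :=
  (s27gen_S A).dualAnnihilator

theorem s27zk_mem_Omega_iff {A : Divisor K F} {ω : Module.Dual K ↥(repartitions K F)} :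
    ω ∈ s27zk_Omega A ↔
      (∀ α ∈ repartitionsOf A, ω α = 0) ∧ ∀ f : F, ω (s27gen_const f) = 0 := by
  rw [s27zk_Omega, Submodule.mem_dualAnnihilator]
  constructor
  · intro h
    exact ⟨fun α hα => h α (Submodule.mem_sup_left hα),
      fun f => h _ (Submodule.mem_sup_right (s27gen_const_mem f))⟩
  · rintro ⟨h1, h2⟩ α hα
    obtain ⟨β, hβ, γ, hγ, rfl⟩ := Submodule.mem_sup.1 hα
    rw [map_add, h1 β hβ, zero_add]
    obtain ⟨f, hf⟩ := mem_principalRepartitions_iff.1 hγ
    have : γ = s27gen_const f := by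
      ext w
      rw [hf, s27gen_const_apply]
    rw [this, h2]

theorem s27zk_Omega_anti {A B : Divisor K F} (h : A ≤ B) : s27zk_Omega B ≤ s27zk_Omega A :=
  Submodule.dualAnnihilator_anti (s27gen_S_mono h)

/-- `dim Ω(A) = dim H1(A)`. -/
theorem s27zk_finrank_Omega (A : Divisor K F) [Module.Finite K (H1 A)] :
    Module.finrank K ↥(s27zk_Omega A) = Module.finrank K (H1 A) := by
  rw [← Subspace.dual_finrank_eq (K := K) (V := H1 A)]
  exact (LinearEquiv.finrank_eq (Submodule.dualQuotEquivDualAnnihilator (s27gen_S A))).symm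

theorem s27zk_finite_Omega (A : Divisor K F) [Module.Finite K (H1 A)] :
    Module.Finite K ↥(s27zk_Omega A) :=
  Module.Finite.equiv (Submodule.dualQuotEquivDualAnnihilator (s27gen_S A))

/-- the shift: `ω ∈ Ω(A)`, `f ≠ 0`, `B ≤ A + (f)` pointwise ⟹ `f ω ∈ Ω(B)`. -/
theorem s27zk_act_mem {A B : Divisor K F} {ω : Module.Dual K ↥(repartitions K F)}
    (hω : ω ∈ s27zk_Omega A) {f : F} (hf : f ≠ 0)
    (hB : ∀ v : Place K F, B v ≤ A v + v.ord f) : s27zk_act f ω ∈ s27zk_Omega B := by
  rw [s27zk_mem_Omega_iff] at hω ⊢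
  refine ⟨fun α hα => ?_, fun g => ?_⟩
  · rw [s27zk_act_apply]
    apply hω.1
    rw [mem_repartitionsOf_iff] at hα ⊢
    intro v
    rw [s27zk_mul_apply]
    rcases hα v with h0 | h
    · left
      rw [h0, mul_zero]
    · by_cases h0 : (α : Place K F → F) v = 0
      · left
        rw [h0, mul_zero]
      · right
        rw [v.ord_mul hf h0]
        have := hB v
        omega
  · rw [s27zk_act_apply, s27zk_mul_const]
    exact hω.2 _

/-! ### `Ω(A) ∩ Ω(B) ⊆ Ω(A ⊔ B)` -/

theorem s27zk_repartitionsOf_sup_le (A B : Divisor K F) :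
    repartitionsOf (A ⊔ B) ≤ repartitionsOf A ⊔ repartitionsOf B := by
  classical
  intro α hα
  have hval : ∀ v : Place K F,
      v.adicValuation ((α : Place K F → F) v) ≤ exp ((A ⊔ B) v) := hα
  let a₁ : Place K F → F := fun v => if B v ≤ A v then (α : Place K F → F) v else 0
  let a₂ : Place K F → F := fun v => if B v ≤ A v then 0 else (α : Place K F → F) v
  have h1 : ∀ v : Place K F, v.adicValuation (a₁ v) ≤ exp (A v) := by
    intro v
    show v.adicValuation (if B v ≤ A v then (α : Place K F → F) v else 0) ≤ exp (A v)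
    by_cases h : B v ≤ A v
    · rw [if_pos h]
      have := hval v
      rwa [Finsupp.sup_apply, sup_eq_left.2 h] at this
    · rw [if_neg h, map_zero]
      exact zero_le
  have h2 : ∀ v : Place K F, v.adicValuation (a₂ v) ≤ exp (B v) := by
    intro v
    show v.adicValuation (if B v ≤ A v then 0 else (α : Place K F → F) v) ≤ exp (B v)
    by_cases h : B v ≤ A v
    · rw [if_pos h, map_zero]
      exact zero_le
    · rw [if_neg h]
      have := hval v
      rwa [Finsupp.sup_apply, sup_eq_right.2 (not_le.1 h).le] at this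
  refine Submodule.mem_sup.2 ⟨⟨a₁, mem_repartitions_of_forall_le_exp A a₁ h1⟩, h1,
    ⟨a₂, mem_repartitions_of_forall_le_exp B a₂ h2⟩, h2, ?_⟩
  ext v
  rw [s27gen_add_apply]
  show (if B v ≤ A v then (α : Place K F → F) v else 0) +
    (if B v ≤ A v then 0 else (α : Place K F → F) v) = (α : Place K F → F) v
  by_cases h : B v ≤ A v
  · rw [if_pos h, if_pos h, add_zero]
  · rw [if_neg h, if_neg h, zero_add]

theorem s27zk_mem_Omega_sup {A B : Divisor K F} {ω : Module.Dual K ↥(repartitions K F)}
    (hA : ω ∈ s27zk_Omega A) (hB : ω ∈ s27zk_Omega B) : ω ∈ s27zk_Omega (A ⊔ B) := by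
  rw [s27zk_mem_Omega_iff] at hA hB ⊢
  refine ⟨fun α hα => ?_, hA.2⟩
  obtain ⟨β, hβ, γ, hγ, rfl⟩ := Submodule.mem_sup.1 (s27zk_repartitionsOf_sup_le A B hα)
  rw [map_add, hA.1 β hβ, hB.1 γ hγ, add_zero]

theorem s27zk_zero_mem_Omega (A : Divisor K F) :
    (0 : Module.Dual K ↥(repartitions K F)) ∈ s27zk_Omega A := zero_mem _

end Fermat.Agent.S27
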