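/-
Project S27, cell (Z)/ZK (helper11): the full Riemann–Roch theorem, PART 2:
the space of Weil differentials `⋃ Ω(A)` has `F`-dimension at most one (Stichtenoth, Prop. 1.5.9).

* `s27zk_exists_act_eq` : `0 ≠ ω₁ ∈ Ω(A₁)`, `ω₂ ∈ Ω(A₂)` ⟹ `∃ f : F, ω₂ = f ω₁`.
-/
import Mathlib
import Fermat.Agent.S27.Zeta.RR.Omega

set_option autoImplicit false
set_option linter.unusedSectionVars false
set_option linter.style.haveILetI false
set_option linter.unusedVariables false

noncomputable section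

namespace Fermat.Agent.S27

open AlgebraicCurve Fermat.Agent.JT3 Fermat.Agent.S24 WithZero

universe u v
variable {K : Type u} {F : Type v} [Field K] [Field F] [Algebra K F]

/-- `f ↦ f ω` is injective for `ω ≠ 0`. -/
theorem s27zk_actL_injective {ω : Module.Dual K ↥(repartitions K F)} (hω : ω ≠ 0) :
    Function.Injective (s27zk_actL ω) := by
  rw [← LinearMap.ker_eq_bot, LinearMap.ker_eq_bot']
  intro f hf
  by_contra hf0
  exact hω (s27zk_eq_zero_of_act_eq_zero hf0 hf)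

/-- `f ∈ L(A + B)`, `ω ∈ Ω(A)` ⟹ `f ω ∈ Ω(-B)`. -/
theorem s27zk_act_mem_of_mem_L {A B : Divisor K F} {ω : Module.Dual K ↥(repartitions K F)}
    (hω : ω ∈ s27zk_Omega A) {f : F} (hf : f ∈ riemannRochSpace (A + B)) :
    s27zk_act f ω ∈ s27zk_Omega (-B) := by
  rcases eq_or_ne f 0 with rfl | hf0
  · rw [s27zk_act_zero_left]
    exact zero_mem _
  · refine s27zk_act_mem hω hf0 fun v => ?_
    have := (rt_mem_L_iff hf0).1 hf v
    rw [Finsupp.add_apply] at this
    rw [Finsupp.neg_apply]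
    omega

theorem s27zk_map_actL_le {A B : Divisor K F} {ω : Module.Dual K ↥(repartitions K F)}
    (hω : ω ∈ s27zk_Omega A) :
    (riemannRochSpace (A + B)).map (s27zk_actL ω) ≤ s27zk_Omega (-B) := by
  rintro _ ⟨f, hf, rfl⟩
  exact s27zk_act_mem_of_mem_L hω hf

theorem s27zk_finrank_map_actL {ω : Module.Dual K ↥(repartitions K F)} (hω : ω ≠ 0)
    (L : Submodule K F) :
    Module.finrank K ↥(L.map (s27zk_actL ω)) = Module.finrank K ↥L :=
  (LinearEquiv.finrank_eq
    (Submodule.equivMapOfInjective (s27zk_actL ω) (s27zk_actL_injective hω) L)).symm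

section main

variable [IsAlgClosed K] {x : F} (hx : rt_IsSepGen K x)

include hx

/-- **Stichtenoth, Prop. 1.5.9**: any two Weil differentials are `F`-proportional. -/
theorem s27zk_exists_act_eq {g : ℕ} {c : ℤ}
    (hc : ∀ D : Divisor K F, c ≤ Divisor.degree D →
      (Module.finrank K ↥(riemannRochSpace D) : ℤ) = Divisor.degree D + 1 - g)
    {A₁ A₂ : Divisor K F} {ω₁ ω₂ : Module.Dual K ↥(repartitions K F)}
    (h₁ : ω₁ ∈ s27zk_Omega A₁) (h₁0 : ω₁ ≠ 0) (h₂ : ω₂ ∈ s27zk_Omega A₂) :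
    ∃ f : F, ω₂ = s27zk_act f ω₁ := by
  classical
  by_contra hno
  rw [not_exists] at hno
  have h₂0 : ω₂ ≠ 0 := by
    intro h
    apply hno 0
    rw [h, s27zk_act_zero_left]
  -- a common divisor
  set A : Divisor K F := A₁ ⊓ A₂ with hA
  have hω₁ : ω₁ ∈ s27zk_Omega A := s27zk_Omega_anti inf_le_left h₁
  have hω₂ : ω₂ ∈ s27zk_Omega A := s27zk_Omega_anti inf_le_right h₂
  obtain ⟨v₀⟩ := s27gen_nonempty_place hx
  -- the size of `B`
  set n : ℕ := (max (3 * (g : ℤ) - 2 - 2 * Divisor.degree A) 1).toNat with hn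
  have hn1 : (1 : ℤ) ≤ n := by
    rw [hn, Int.toNat_of_nonneg (le_trans zero_le_one (le_max_right _ _))]
    exact le_max_right _ _
  have hn2 : 3 * (g : ℤ) - 2 - 2 * Divisor.degree A ≤ n := by
    rw [hn, Int.toNat_of_nonneg (le_trans zero_le_one (le_max_right _ _))]
    exact le_max_left _ _
  set B : Divisor K F := Finsupp.single v₀ (n : ℤ) with hB
  have hdegB : Divisor.degree B = n := rt_degree_single hx v₀ n
  -- the two subspaces of `Ω(-B)`
  set U₁ := (riemannRochSpace (A + B)).map (s27zk_actL ω₁) with hU₁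
  set U₂ := (riemannRochSpace (A + B)).map (s27zk_actL ω₂) with hU₂
  have hU₁le : U₁ ≤ s27zk_Omega (-B) := s27zk_map_actL_le hω₁
  have hU₂le : U₂ ≤ s27zk_Omega (-B) := s27zk_map_actL_le hω₂
  have hdisj : U₁ ⊓ U₂ = ⊥ := by
    rw [eq_bot_iff]
    rintro η ⟨⟨f₁, hf₁, h1⟩, ⟨f₂, hf₂, h2⟩⟩
    rw [Submodule.mem_bot]
    rw [s27zk_actL_apply] at h1 h2
    by_cases hf₂0 : f₂ = 0
    · rw [← h2, hf₂0, s27zk_act_zero_left]
    · exfalso
      apply hno (f₁ * f₂⁻¹)
      have : ω₂ = s27zk_act f₂⁻¹ (s27zk_act f₂ ω₂) := by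
        rw [s27zk_act_act, mul_inv_cancel₀ hf₂0, s27zk_act_one]
      rw [this, h2, ← h1, s27zk_act_act]
  -- dimensions
  obtain ⟨hfinH, hdimH⟩ := s27gen_finrank_H1 hx hc (-B)
  haveI := hfinH
  haveI := s27zk_finite_Omega (-B)
  haveI := rt_L_finite hx (A + B)
  have hd₁ : Module.finrank K ↥U₁ = Module.finrank K ↥(riemannRochSpace (A + B)) :=
    s27zk_finrank_map_actL h₁0 _
  have hd₂ : Module.finrank K ↥U₂ = Module.finrank K ↥(riemannRochSpace (A + B)) :=
    s27zk_finrank_map_actL h₂0 _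
  have hsum := Submodule.finrank_sup_add_finrank_inf_eq U₁ U₂
  rw [hdisj, finrank_bot, add_zero] at hsum
  have hle : Module.finrank K ↥(U₁ ⊔ U₂) ≤ Module.finrank K ↥(s27zk_Omega (-B)) :=
    Submodule.finrank_mono (sup_le hU₁le hU₂le)
  rw [s27zk_finrank_Omega] at hle
  -- the numbers
  have hlB : Module.finrank K ↥(riemannRochSpace (-B)) = 0 := by
    apply rt_finrank_L_of_degree_neg hx
    rw [map_neg, hdegB]
    omega
  have hineq := s27gen_riemann_ineq hx hc (A + B)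
  rw [map_add, hdegB] at hineq
  rw [hlB, map_neg, hdegB] at hdimH
  have hle' : (Module.finrank K ↥(U₁ ⊔ U₂) : ℤ) ≤ Module.finrank K (H1 (-B)) := by
    exact_mod_cast hle
  rw [hsum, hd₁, hd₂] at hle'
  push_cast at hle' hdimH
  omega

end main

end Fermat.Agent.S27
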