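/-
Project S27, cell (Z)/ZK (helper11): the full Riemann–Roch theorem, PART 3:
the divisor of a nonzero Weil differential (Stichtenoth, Lemma 1.5.10) and the duality theorem
(Stichtenoth, Thm. 1.5.14).

* `s27zk_degree_lt_of_mem` : `0 ≠ ω ∈ Ω(A)` ⟹ `deg A < c` (`c` the threshold of Riemann's theorem);
* `s27zk_exists_canon`     : `0 ≠ ω ∈ Ω(A₀)` ⟹ there is a largest `W` with `ω ∈ Ω(W)`;
* `s27zk_map_actL_eq`      : for such `ω`, `W`: `f ↦ f ω` maps `L(W - A)` onto `Ω(A)`.
-/
import Mathlib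
import Fermat.Agent.S27.Zeta.RR.Dim

set_option autoImplicit false
set_option linter.unusedSectionVars false
set_option linter.style.haveILetI false
set_option linter.unusedVariables false

noncomputable section

namespace Fermat.Agent.S27

open AlgebraicCurve Fermat.Agent.JT3 Fermat.Agent.S24 WithZero

universe u v
variable {K : Type u} {F : Type v} [Field K] [Field F] [Algebra K F]

section main

variable [IsAlgClosed K] {x : F} (hx : rt_IsSepGen K x)

include hx

/-- a nonzero differential of `Ω(A)` forces `deg A < c`. -/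
theorem s27zk_degree_lt_of_mem {g : ℕ} {c : ℤ}
    (hc : ∀ D : Divisor K F, c ≤ Divisor.degree D →
      (Module.finrank K ↥(riemannRochSpace D) : ℤ) = Divisor.degree D + 1 - g)
    {A : Divisor K F} {ω : Module.Dual K ↥(repartitions K F)}
    (hω : ω ∈ s27zk_Omega A) (h0 : ω ≠ 0) : Divisor.degree A < c := by
  by_contra h
  rw [not_lt] at h
  have htop := s27gen_S_eq_top hx hc A h
  apply h0
  rw [s27zk_Omega, htop, Submodule.dualAnnihilator_top] at hω
  exact (Submodule.mem_bot K).1 hω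

/-- **the divisor of a nonzero Weil differential** (Stichtenoth, Lemma 1.5.10). -/
theorem s27zk_exists_canon {g : ℕ} {c : ℤ}
    (hc : ∀ D : Divisor K F, c ≤ Divisor.degree D →
      (Module.finrank K ↥(riemannRochSpace D) : ℤ) = Divisor.degree D + 1 - g)
    {A₀ : Divisor K F} {ω : Module.Dual K ↥(repartitions K F)}
    (hω : ω ∈ s27zk_Omega A₀) (h0 : ω ≠ 0) :
    ∃ W : Divisor K F, ω ∈ s27zk_Omega W ∧ ∀ A : Divisor K F, ω ∈ s27zk_Omega A → A ≤ W := by
  let P : ℤ → Prop := fun d => ∃ A : Divisor K F, ω ∈ s27zk_Omega A ∧ Divisor.degree A = d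
  have hbdd : ∃ b : ℤ, ∀ d, P d → d ≤ b := by
    refine ⟨c, ?_⟩
    rintro d ⟨A, hA, rfl⟩
    exact (s27zk_degree_lt_of_mem hx hc hA h0).le
  obtain ⟨d, ⟨W, hW, hWd⟩, hmax⟩ := Int.exists_greatest_of_bdd hbdd ⟨_, A₀, hω, rfl⟩
  refine ⟨W, hW, fun A hA => ?_⟩
  have hsup := s27zk_mem_Omega_sup hA hW
  have h1 : Divisor.degree (A ⊔ W) ≤ d := hmax _ ⟨_, hsup, rfl⟩
  by_contra hle
  have hne : W ≠ A ⊔ W := by
    intro h
    apply hle
    rw [h]
    exact le_sup_left
  have := rt_degree_lt_of_lt hx (le_sup_right : W ≤ A ⊔ W) hne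
  omega

/-- **duality** (Stichtenoth, Thm. 1.5.14): `f ↦ f ω` maps `L(W - A)` onto `Ω(A)`, `W = (ω)`. -/
theorem s27zk_map_actL_eq {g : ℕ} {c : ℤ}
    (hc : ∀ D : Divisor K F, c ≤ Divisor.degree D →
      (Module.finrank K ↥(riemannRochSpace D) : ℤ) = Divisor.degree D + 1 - g)
    {W : Divisor K F} {ω : Module.Dual K ↥(repartitions K F)}
    (hω : ω ∈ s27zk_Omega W) (h0 : ω ≠ 0)
    (hmax : ∀ A : Divisor K F, ω ∈ s27zk_Omega A → A ≤ W) (A : Divisor K F) :
    (riemannRochSpace (W - A)).map (s27zk_actL ω) = s27zk_Omega A := by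
  apply le_antisymm
  · rintro _ ⟨f, hf, rfl⟩
    rw [s27zk_actL_apply]
    rcases eq_or_ne f 0 with rfl | hf0
    · rw [s27zk_act_zero_left]
      exact zero_mem _
    · refine s27zk_act_mem hω hf0 fun v => ?_
      have := (rt_mem_L_iff hf0).1 hf v
      rw [Finsupp.sub_apply] at this
      omega
  · intro ω' hω'
    obtain ⟨f, rfl⟩ := s27zk_exists_act_eq hx hc hω h0 hω'
    refine ⟨f, ?_, rfl⟩
    rcases eq_or_ne f 0 with rfl | hf0
    · exact zero_mem _
    · rw [SetLike.mem_coe, rt_mem_L_iff hf0]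
      intro v
      have h1 : ω ∈ s27zk_Omega (A - rt_div hx f) := by
        have : ω = s27zk_act f⁻¹ (s27zk_act f ω) := by
          rw [s27zk_act_act, mul_inv_cancel₀ hf0, s27zk_act_one]
        rw [this]
        refine s27zk_act_mem hω' (inv_ne_zero hf0) fun w => ?_
        rw [Finsupp.sub_apply, rt_div_apply, w.ord_inv]
        omega
      have := Finsupp.le_def.1 (hmax _ h1) v
      rw [Finsupp.sub_apply, rt_div_apply] at this
      rw [Finsupp.sub_apply]
      omega

end main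

end Fermat.Agent.S27
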