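/-
Project S27, cell (Z)/ZK (helper11): **the Riemann–Roch theorem** for a function field `F / K`
with a separating generator over an algebraically closed constant field, in ANY characteristic.

* `s27z_rr_genus hx hc` : for `g`, `c` as in Riemann's theorem `rt_riemann`
    (`hc : ∀ D, c ≤ deg D → ℓ(D) = deg D + 1 - g`) there is a divisor `W` with
    `ℓ(A) = deg A + 1 - g + ℓ(W - A)` for every divisor `A`;
* `s27z_rr hx`          : `∃ g W, ∀ A, ℓ(A) = deg A + 1 - g + ℓ(W - A)`;
* `s27z_rr_canon hx hRR`: consequences for ANY pair `(g, W)` satisfying Riemann–Roch: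
    `ℓ(W) = g`, `deg W = 2 g - 2`, and `ℓ(A) = deg A + 1 - g` as soon as `deg A ≥ 2 g - 1`.
-/
import Mathlib
import Fermat.Agent.S27.Zeta.RR.Canon

set_option autoImplicit false
set_option linter.unusedSectionVars false
set_option linter.style.haveILetI false
set_option linter.unusedVariables false

noncomputable section

namespace Fermat.Agent.S27

open AlgebraicCurve Fermat.Agent.JT3 Fermat.Agent.S24 WithZero

universe u v
variable {K : Type u} {F : Type v} [Field K] [Field F] [Algebra K F]

section main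

variable [IsAlgClosed K] {x : F} (hx : rt_IsSepGen K x)

include hx

/-- **Riemann–Roch**, with the genus `g` of Riemann's theorem. -/
theorem s27z_rr_genus {g : ℕ} {c : ℤ}
    (hc : ∀ D : Divisor K F, c ≤ Divisor.degree D →
      (Module.finrank K ↥(riemannRochSpace D) : ℤ) = Divisor.degree D + 1 - g) :
    ∃ W : Divisor K F, ∀ A : Divisor K F,
      (Module.finrank K ↥(riemannRochSpace A) : ℤ) =
        Divisor.degree A + 1 - g + Module.finrank K ↥(riemannRochSpace (W - A)) := by
  -- a nonzero differential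
  obtain ⟨v₀⟩ := s27gen_nonempty_place hx
  set A₀ : Divisor K F := Finsupp.single v₀ (-2 : ℤ) with hA₀
  have hdeg : Divisor.degree A₀ = -2 := rt_degree_single hx v₀ (-2)
  obtain ⟨hfin, hdim⟩ := s27gen_finrank_H1 hx hc A₀
  haveI := hfin
  have hl : Module.finrank K ↥(riemannRochSpace A₀) = 0 :=
    rt_finrank_L_of_degree_neg hx (by rw [hdeg]; norm_num)
  have hpos : 0 < Module.finrank K ↥(s27zk_Omega A₀) := by
    rw [s27zk_finrank_Omega]
    have : (0 : ℤ) < Module.finrank K (H1 A₀) := by
      rw [hdim, hl, hdeg]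
      push_cast
      omega
    exact_mod_cast this
  haveI := s27zk_finite_Omega A₀
  obtain ⟨⟨ω, hω⟩, hne⟩ :=
    (Module.finrank_pos_iff_exists_ne_zero (R := K) (M := ↥(s27zk_Omega A₀))).mp hpos
  have h0 : ω ≠ 0 := fun h => hne (Subtype.ext h)
  obtain ⟨W, hW, hmax⟩ := s27zk_exists_canon hx hc hω h0
  refine ⟨W, fun A => ?_⟩
  obtain ⟨hfinA, hdimA⟩ := s27gen_finrank_H1 hx hc A
  haveI := hfinA
  have h1 : Module.finrank K ↥(riemannRochSpace (W - A)) =
      Module.finrank K ↥(s27zk_Omega A) := by
    rw [← s27zk_map_actL_eq hx hc hW h0 hmax A, s27zk_finrank_map_actL h0]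
  rw [h1, s27zk_finrank_Omega, hdimA]
  ring

/-- **Riemann–Roch** (cell ZK of the (Z) table). -/
theorem s27z_rr :
    ∃ (g : ℕ) (W : Divisor K F), ∀ A : Divisor K F,
      (Module.finrank K ↥(riemannRochSpace A) : ℤ) =
        Divisor.degree A + 1 - g + Module.finrank K ↥(riemannRochSpace (W - A)) := by
  obtain ⟨g, c, hgc⟩ := rt_riemann hx
  obtain ⟨W, hW⟩ := s27z_rr_genus hx (g := g) (c := c) fun D hD => (hgc D).2 hD
  exact ⟨g, W, hW⟩

/-- consequences of Riemann–Roch for any pair `(g, W)`. -/
theorem s27z_rr_canon {g : ℕ} {W : Divisor K F}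
    (hRR : ∀ A : Divisor K F,
      (Module.finrank K ↥(riemannRochSpace A) : ℤ) =
        Divisor.degree A + 1 - g + Module.finrank K ↥(riemannRochSpace (W - A))) :
    Module.finrank K ↥(riemannRochSpace W) = g ∧ Divisor.degree W = 2 * g - 2 ∧
      ∀ A : Divisor K F, 2 * (g : ℤ) - 1 ≤ Divisor.degree A →
        (Module.finrank K ↥(riemannRochSpace A) : ℤ) = Divisor.degree A + 1 - g := by
  have h0 := hRR 0
  have hW := hRR W
  rw [sub_zero, map_zero, rt_finrank_L_zero hx] at h0
  rw [sub_self, rt_finrank_L_zero hx] at hW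
  push_cast at h0 hW
  have hlW : (Module.finrank K ↥(riemannRochSpace W) : ℤ) = g := by omega
  have hdegW : Divisor.degree W = 2 * g - 2 := by omega
  refine ⟨by exact_mod_cast hlW, hdegW, fun A hA => ?_⟩
  have h1 := hRR A
  have h2 : Module.finrank K ↥(riemannRochSpace (W - A)) = 0 := by
    apply rt_finrank_L_of_degree_neg hx
    rw [map_sub, hdegW]
    omega
  rw [h2] at h1
  push_cast at h1
  omega

end main

end Fermat.Agent.S27
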